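import Fermat.Agent.S25.H685.LocRig
import Fermat.Agent.S25.H747.AlgAbelTop

/-!
# S25 helper (helper685): AB-ALG leaf AA4 `abelDatum_locRig`

The algebraic Abel datum is Zariski-locally rigidifiable.  Input: leaf AA2 (`abelDatum_isBC`,
base change of the Abel datum), taken as a hypothesis; everything else is the general lemma
`curveGD_locRig`.
-/

set_option autoImplicit false

universe u

open scoped TensorProduct

namespace Fermat.Agent.S25.H685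

open Fermat.Agent.S25 Fermat.Agent.S25.H747

variable {k : Type u} [Field k]
  {B₀ B₁ B₀₁ : Type u} [CommRing B₀] [CommRing B₁] [CommRing B₀₁]
  [Algebra k B₀] [Algebra k B₁] [Algebra k B₀₁] [Algebra B₀ B₀₁] [Algebra B₁ B₀₁]
  [IsScalarTower k B₀ B₀₁] [IsScalarTower k B₁ B₀₁]

/-- **AA4** (from AA2): Zariski-locally on `Spec A` the Abel datum is rigidifiable. -/
theorem abelDatum_locRig_of_isBC (e : B₁ →ₐ[k] k) (g : ℕ)
    (hBC : ∀ (A A' : Type u) [CommRing A] [Algebra k A] [CommRing A'] [Algebra k A']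
      (ψ : A →ₐ[k] A') (P : Fin g → H746.ChartPt k B₀ B₁ A),
      CurveGD.IsBC ψ (abelDatum (B₀₁ := B₀₁) e g A P)
        (abelDatum (B₀₁ := B₀₁) e g A' (fun i => (P i).map ψ)))
    (A : Type u) [CommRing A] [Algebra k A] (P : Fin g → H746.ChartPt k B₀ B₁ A)
    (𝔭 : Ideal A) (h𝔭 : 𝔭.IsPrime) : ∃ f : A, f ∉ 𝔭 ∧
      ∀ (A' : Type u) [CommRing A'] [Algebra k A'] (ψ : A →ₐ[k] A'), IsUnit (ψ f) →
        (abelDatum (B₀₁ := B₀₁) e g A' (fun i => (P i).map ψ)).Rigidifiable e := by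
  obtain ⟨f, hf, H⟩ := curveGD_locRig e A (abelDatum (B₀₁ := B₀₁) e g A P) 𝔭 h𝔭
  exact ⟨f, hf, fun A' _ _ ψ hψ => H A' ψ hψ _ (hBC A A' ψ P)⟩

/-- **AA4** in the exact form consumed by `H747.algAbel_of_leaves`: leaf AA4 follows from
leaf AA2. -/
theorem stmtAA4_of_stmtAA2 (h2 : StmtAA2 k B₀ B₁ B₀₁) : StmtAA4 k B₀ B₁ B₀₁ :=
  fun x y e hC g A _ _ P 𝔭 h𝔭 =>
    abelDatum_locRig_of_isBC e g (fun A A' _ _ _ _ ψ P => h2 x y e hC g A A' ψ P) A P 𝔭 h𝔭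

/-- `Stmt.AlgAbel` from the two leaves AA2 and AA6 only. -/
theorem algAbel_of_AA2_AA6 [IsAlgClosed k] (h2 : StmtAA2 k B₀ B₁ B₀₁)
    (h6 : StmtAA6 k B₀ B₁ B₀₁) : H746.Stmt.AlgAbel k B₀ B₁ B₀₁ :=
  algAbel_of_leaves h2 (stmtAA4_of_stmtAA2 h2) h6

end Fermat.Agent.S25.H685
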