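import Mathlib

/-!
# S25 helper (helper685), block AFF, leaf F4: affine charts of a base change

Let `c : C ⟶ Spec R` and `a : R ⟶ A`.  For an affine open `U` of `C`, the preimage of `U` in
`pullback c (Spec.map a)` is affine and its ring of sections is the pushout (tensor product)
`Γ(C, U) ⊗[R] A`.
-/

set_option autoImplicit false

universe u

open CategoryTheory CategoryTheory.Limits AlgebraicGeometry Opposite TopologicalSpace

namespace Fermat.Agent.S25.H685

noncomputable section

variable {R A : CommRingCat.{u}} (a : R ⟶ A) {C : Scheme.{u}} (c : C ⟶ Spec R)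

/-- The chart of `pullback c (Spec.map a)` lying over the open `U` of `C`. -/
def chartOpen (U : C.Opens) : (pullback c (Spec.map a)).Opens :=
  (pullback.fst c (Spec.map a)) ⁻¹ᵁ U

/-- The charts over affine opens are affine. -/
theorem isAffineOpen_chartOpen {U : C.Opens} (hU : IsAffineOpen U) :
    IsAffineOpen (chartOpen a c U) := by
  have : IsAffineHom (pullback.fst c (Spec.map a)) :=
    MorphismProperty.pullback_fst _ _ (inferInstanceAs (IsAffineHom (Spec.map a)))
  exact hU.preimage (pullback.fst c (Spec.map a))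

/-- The structure map `R ⟶ Γ(C, U)`. -/
def baseToSections (U : C.Opens) : R ⟶ Γ(C, U) :=
  (Scheme.ΓSpecIso R).inv ≫ c.appLE ⊤ U le_top

/-- The map `A ⟶ Γ(C_A, chart U)`. -/
def algToChart (U : C.Opens) : A ⟶ Γ(pullback c (Spec.map a), chartOpen a c U) :=
  baseToSections (pullback.snd c (Spec.map a)) (chartOpen a c U)

/-- The map `Γ(C, U) ⟶ Γ(C_A, chart U)`. -/
def sectionsToChart (U : C.Opens) : Γ(C, U) ⟶ Γ(pullback c (Spec.map a), chartOpen a c U) :=
  (pullback.fst c (Spec.map a)).app U

theorem comp_appTop_topIso {X Y : Scheme.{u}} (f : X ⟶ Y) (U : X.Opens) :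
    (U.ι ≫ f).appTop ≫ U.topIso.hom = f.appLE ⊤ U le_top := by
  rw [Scheme.Hom.comp_appTop, Category.assoc]
  refine congrArg (f.appTop ≫ ·) ?_
  exact (X.presheaf.map_comp (homOfLE (le_top : U.ι ''ᵁ ⊤ ≤ ⊤)).op
    (eqToHom U.ι_image_top.symm).op).symm

theorem comp_appTop_topIso_spec {X : Scheme.{u}} {B : CommRingCat.{u}} (f : X ⟶ Spec B)
    (U : X.Opens) :
    (U.ι ≫ f).appTop ≫ U.topIso.hom = (Scheme.ΓSpecIso B).hom ≫ baseToSections f U := by
  rw [comp_appTop_topIso, baseToSections, Iso.hom_inv_id_assoc]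

theorem morphismRestrict_appTop_topIso {X Y : Scheme.{u}} (f : X ⟶ Y) (U : Y.Opens) :
    (f ∣_ U).appTop ≫ (f ⁻¹ᵁ U).topIso.hom = U.topIso.hom ≫ f.app U := by
  have h0 := morphismRestrict_appTop f U
  have hnat := f.naturality (eqToHom U.ι_image_top.symm).op
  have h2 : (f.app (U.ι ''ᵁ ⊤) ≫ X.presheaf.map (eqToHom (by
      rw [Scheme.Opens.ι_image_top]; simp)).op) ≫
      X.presheaf.map (eqToHom (f ⁻¹ᵁ U).ι_image_top.symm).op =
      Y.presheaf.map (eqToHom U.ι_image_top.symm).op ≫ f.app U := by
    rw [hnat, Category.assoc, ← Functor.map_comp]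
    rfl
  exact (congrArg (· ≫ (f ⁻¹ᵁ U).topIso.hom) h0).trans h2

/-- The restricted square is a pullback square. -/
theorem isPullback_chart (U : C.Opens) :
    IsPullback ((pullback.fst c (Spec.map a)) ∣_ U)
      ((chartOpen a c U).ι ≫ pullback.snd c (Spec.map a)) (U.ι ≫ c) (Spec.map a) :=
  ((isPullback_morphismRestrict (pullback.fst c (Spec.map a)) U).flip.paste_horiz
    (IsPullback.of_hasPullback c (Spec.map a)).flip).flip

/-- **F4**: the ring of sections of the chart over an affine open `U` is the pushout of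
`Γ(C, U)` and `A` over `R`. -/
theorem isPushout_chart {U : C.Opens} (hU : IsAffineOpen U) :
    IsPushout (baseToSections c U) a (sectionsToChart a c U) (algToChart a c U) := by
  have : IsAffine U.toScheme := hU
  have h := isPushout_appTop_of_isPullback (isPullback_chart a c U)
  refine h.of_iso (Scheme.ΓSpecIso R) U.topIso (Scheme.ΓSpecIso A) (chartOpen a c U).topIso
    ?_ ?_ ?_ ?_
  · exact comp_appTop_topIso_spec c U
  · exact Scheme.ΓSpecIso_naturality a
  · exact morphismRestrict_appTop_topIso _ U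
  · exact comp_appTop_topIso_spec _ _

end

end Fermat.Agent.S25.H685
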