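import Fermat.Agent.S25.H685.SLBC

/-!
# S25 helper (helper685): gluing data are Zariski-locally rigidifiable

General GDC lemma `curveGD_locRig`: for a gluing datum `G` over `A` and a prime `𝔭` of `A` there
is `f ∉ 𝔭` such that every base change of `G` along `ψ : A → A'` with `ψ f` a unit is
rigidifiable.
-/

set_option autoImplicit false
set_option linter.style.haveILetI false

universe u

open scoped TensorProduct

namespace Fermat.Agent.S25.H685

open Fermat.Agent.S25

theorem slbc_instEq_aux {R S N P : Type*} [CommRing R] [CommRing S]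
    [AddCommGroup N] [Module R N] [AddCommGroup P] [Module S P]
    (a a' : Algebra R S) (m m' : Module R P)
    (t : @IsScalarTower R S P a.toSMul _ m.toSMul)
    (t' : @IsScalarTower R S P a'.toSMul _ m'.toSMul)
    (g : @LinearMap R R _ _ (RingHom.id R) N P _ _ _ m)
    (g' : @LinearMap R R _ _ (RingHom.id R) N P _ _ _ m')
    (ha : a = a') (hm : m = m') (hg : ∀ n, g n = g' n)
    (h : @IsBaseChange R N P S _ _ _ _ a _ m _ t g) :
    @IsBaseChange R N P S _ _ _ _ a' _ m' _ t' g' := by
  subst ha hm
  have : g = g' := LinearMap.ext hg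
  subst this
  exact h

section
variable {R R' : Type u} [CommRing R] [CommRing R'] [ia : Algebra R R']
  {N N' : Type u} [AddCommGroup N] [Module R N] [AddCommGroup N'] [im : Module R N']
  [Module R' N'] [it : IsScalarTower R R' N']

theorem slbc_of_isBaseChange (g : N →ₗ[R] N') (hg : IsBaseChange R' g)
    (b : N →ₛₗ[algebraMap R R'] N') (hb : ∀ n, b n = g n) :
    IsSemilinearBaseChange (algebraMap R R') b := by
  have ha : ia = (algebraMap R R').toAlgebra := Algebra.algebra_ext _ _ fun r => rfl
  have hm : im = Module.compHom N' (algebraMap R R') :=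
    Module.ext' _ _ fun r p => (algebraMap_smul R' r p).symm
  exact slbc_instEq_aux ia (algebraMap R R').toAlgebra im
    (Module.compHom N' (algebraMap R R')) it _ g _ ha hm (fun n => (hb n).symm) hg
end

theorem isBaseChange_equiv_comp {R S M N N' : Type*} [CommRing R] [CommRing S] [Algebra R S]
    [AddCommGroup M] [Module R M] [AddCommGroup N] [Module R N] [Module S N]
    [IsScalarTower R S N] [AddCommGroup N'] [Module R N'] [Module S N'] [IsScalarTower R S N']
    {f : M →ₗ[R] N} (hf : IsBaseChange S f) (θ : N ≃ₗ[S] N') :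
    IsBaseChange S ((θ.toLinearMap.restrictScalars R).comp f) :=
  (IsBaseChange.iff_of_equiv_comm (LinearEquiv.refl R M) θ (LinearMap.ext fun _ => rfl)).mp hf

section
variable {A : Type u} [CommRing A] (L : Type u) [AddCommGroup L] [Module A L] (f : A)

theorem exists_slbc_away (θ : LocalizedModule.Away f L ≃ₗ[Localization.Away f] Localization.Away f) :
    ∃ t : L →ₛₗ[algebraMap A (Localization.Away f)] Localization.Away f,
      IsSemilinearBaseChange (algebraMap A (Localization.Away f)) t := by
  have ht₀ : IsBaseChange (Localization.Away f)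
      (LocalizedModule.mkLinearMap (Submonoid.powers f) L) :=
    IsLocalizedModule.isBaseChange (Submonoid.powers f) _ _
  have ht₁ := isBaseChange_equiv_comp ht₀ θ
  let t : L →ₛₗ[algebraMap A (Localization.Away f)] Localization.Away f :=
    { toFun := fun z => θ (LocalizedModule.mkLinearMap (Submonoid.powers f) L z)
      map_add' := fun m n => by rw [map_add, map_add]
      map_smul' := fun a z => by
        rw [LinearMap.map_smul, ← algebraMap_smul (Localization.Away f) a, θ.map_smul] }
  exact ⟨t, slbc_of_isBaseChange _ ht₁ t (fun _ => rfl)⟩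
end

section
variable {R A : Type u} [CommRing R] [CommRing A] [Algebra R A] (N : Type u) [AddCommGroup N] [Module R N]

/-- the canonical map `N → A ⊗ N` as a semilinear map -/
def tmulOne : N →ₛₗ[algebraMap R A] (A ⊗[R] N) :=
    { toFun := fun n => (1 : A) ⊗ₜ[R] n
      map_add' := fun m n => TensorProduct.tmul_add _ _ _
      map_smul' := fun r n => by
        change (1 : A) ⊗ₜ[R] (r • n) = algebraMap R A r • ((1 : A) ⊗ₜ[R] n)
        rw [TensorProduct.tmul_smul, algebraMap_smul] }

theorem slbc_tmulOne : IsSemilinearBaseChange (algebraMap R A) (tmulOne (A := A) N) :=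
  slbc_of_isBaseChange (TensorProduct.mk R A N 1) (TensorProduct.isBaseChange R N A) _
      (fun _ => rfl)
end


section Main

/-- A ring homomorphism, as a semilinear map, is a base change of the ring. -/
theorem slbc_ringHom {R A : Type u} [CommRing R] [CommRing A] (w : R →+* A) :
    IsSemilinearBaseChange w
      ({ toFun := fun x => w x
         map_add' := fun x y => w.map_add x y
         map_smul' := fun r x => by simp } : R →ₛₗ[w] A) := by
  letI : Algebra R A := w.toAlgebra
  exact IsBaseChange.linearMap R A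

/-- If `L` becomes free of rank one after inverting `f`, then `L` has a semilinear base change
`L → A'` along every `ψ : A → A'` inverting `f`. -/
theorem exists_slbc_of_away {A : Type u} [CommRing A] (L : Type u) [AddCommGroup L] [Module A L]
    (f : A) (θ : LocalizedModule.Away f L ≃ₗ[Localization.Away f] Localization.Away f)
    (A' : Type u) [CommRing A'] (ψ : A →+* A') (hunit : IsUnit (ψ f)) :
    ∃ d : L →ₛₗ[ψ] A', IsSemilinearBaseChange ψ d := by
  obtain ⟨t, ht⟩ := exists_slbc_away L f θ
  have hw : ∀ a, (IsLocalization.Away.lift f hunit : Localization.Away f →+* A')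
      (algebraMap A (Localization.Away f) a) = ψ a :=
    fun a => IsLocalization.Away.lift_eq f hunit a
  let tw : L →ₛₗ[ψ] A' :=
    { toFun := fun z => (IsLocalization.Away.lift f hunit : Localization.Away f →+* A') (t z)
      map_add' := fun m n => by rw [map_add, map_add]
      map_smul' := fun a z => by
        rw [LinearMap.map_smulₛₗ, smul_eq_mul, map_mul, hw, smul_eq_mul] }
  exact ⟨tw, slbc_comp (algebraMap A (Localization.Away f))
    (IsLocalization.Away.lift f hunit : Localization.Away f →+* A') ψ (fun a => (hw a).symm) t _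
    tw (fun _ => rfl) ht (slbc_ringHom _)⟩

/-- An invertible module is free of rank one after inverting some `f ∉ 𝔭`. -/
theorem exists_away_equiv_of_invertible {A : Type u} [CommRing A] (L : Type u) [AddCommGroup L]
    [Module A L] [Module.Invertible A L] (𝔭 : Ideal A) (h𝔭 : 𝔭.IsPrime) :
    ∃ f : A, f ∉ 𝔭 ∧
      Nonempty (LocalizedModule.Away f L ≃ₗ[Localization.Away f] Localization.Away f) := by
  obtain ⟨s, hs, hfree⟩ := Module.Invertible.exists_finset_free_localization (R := A) (M := L)
  obtain ⟨f, hfs, hf⟩ : ∃ f ∈ s, f ∉ 𝔭 := by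
    by_contra hcon
    simp only [not_exists, not_and, not_not] at hcon
    have : Ideal.span (s : Set A) ≤ 𝔭 := Ideal.span_le.mpr (fun x hx => hcon x hx)
    rw [hs] at this
    exact h𝔭.ne_top (top_le_iff.mp this)
  have hfr := hfree f hfs
  exact ⟨f, hf, (Module.Invertible.free_iff_linearEquiv (R := Localization.Away f)
    (M := LocalizedModule.Away f L)).mp hfr⟩

/-- Ambient-algebra form of `exists_slbc_of_invertible`. -/
theorem exists_slbc_of_invertible_aux {R A : Type u} [CommRing R] [CommRing A] [Algebra R A]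
    (N : Type u) [AddCommGroup N] [Module R N] [Module.Invertible R N] (𝔭 : Ideal A)
    (h𝔭 : 𝔭.IsPrime) :
    ∃ f : A, f ∉ 𝔭 ∧ ∀ (A' : Type u) [CommRing A'] (ψ : A →+* A') (χ : R →+* A'),
      (∀ r, χ r = ψ (algebraMap R A r)) → IsUnit (ψ f) →
        ∃ d : N →ₛₗ[χ] A', IsSemilinearBaseChange χ d := by
  obtain ⟨f, hf, ⟨θ⟩⟩ := exists_away_equiv_of_invertible (A ⊗[R] N) 𝔭 h𝔭
  refine ⟨f, hf, ?_⟩
  intro A' _ ψ χ hχ hunit
  obtain ⟨tw, htw⟩ := exists_slbc_of_away (A ⊗[R] N) f θ A' ψ hunit
  let d : N →ₛₗ[χ] A' :=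
    { toFun := fun n => tw (tmulOne (A := A) N n)
      map_add' := fun m n => by rw [map_add, map_add]
      map_smul' := fun r n => by
        rw [LinearMap.map_smulₛₗ, LinearMap.map_smulₛₗ, hχ] }
  exact ⟨d, slbc_comp (algebraMap R A) ψ χ hχ (tmulOne (A := A) N) tw d (fun _ => rfl)
    (slbc_tmulOne N) htw⟩

/-- An invertible `R`-module `N` and a ring map `E : R → A`: for every prime `𝔭` of `A` there
is `f ∉ 𝔭` such that for every `ψ : A → A'` inverting `f`, the module `N` has a base change
along `ψ ∘ E` which is free of rank one, i.e. a semilinear base-change map `N → A'`. -/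
theorem exists_slbc_of_invertible {R A : Type u} [CommRing R] [CommRing A] (E : R →+* A)
    (N : Type u) [AddCommGroup N] [Module R N]
    [Module.Invertible R N] (𝔭 : Ideal A) (h𝔭 : 𝔭.IsPrime) :
    ∃ f : A, f ∉ 𝔭 ∧ ∀ (A' : Type u) [CommRing A'] (ψ : A →+* A') (χ : R →+* A'),
      (∀ r, χ r = ψ (E r)) → IsUnit (ψ f) →
        ∃ d : N →ₛₗ[χ] A', IsSemilinearBaseChange χ d := by
  letI : Algebra R A := E.toAlgebra
  exact exists_slbc_of_invertible_aux N 𝔭 h𝔭

end Main

section CurveGD

variable {k : Type u} [Field k] {B₀ B₁ B₀₁ : Type u} [CommRing B₀] [CommRing B₁] [CommRing B₀₁]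
  [Algebra k B₀] [Algebra k B₁] [Algebra k B₀₁] [Algebra B₀ B₀₁] [Algebra B₁ B₀₁]
  [IsScalarTower k B₀ B₀₁] [IsScalarTower k B₁ B₀₁]

/-- The marked point commutes with base change. -/
theorem epsHom_tensorMapLeft (e : B₁ →ₐ[k] k) {A A' : Type u} [CommRing A] [Algebra k A]
    [CommRing A'] [Algebra k A'] (ψ : A →ₐ[k] A') (z : A ⊗[k] B₁) :
    epsHom e A' (tensorMapLeft k ψ B₁ z) = ψ (epsHom e A z) := by
  induction z using TensorProduct.induction_on with
  | zero => simp
  | tmul a b =>
    simp [epsHom, tensorMapLeft, Algebra.ofId_apply]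
  | add z w hz hw => rw [map_add, map_add, map_add, map_add, hz, hw]

/-- **GDC, local rigidifiability.** For a gluing datum `G` over `A` and a prime `𝔭` of `A`
there is `f ∉ 𝔭` such that every base change of `G` along a `ψ : A → A'` inverting `f` is
rigidifiable. -/
theorem curveGD_locRig (e : B₁ →ₐ[k] k) (A : Type u) [CommRing A] [Algebra k A]
    (G : CurveGD k B₀ B₁ B₀₁ A) (𝔭 : Ideal A) (h𝔭 : 𝔭.IsPrime) :
    ∃ f : A, f ∉ 𝔭 ∧ ∀ (A' : Type u) [CommRing A'] [Algebra k A'] (ψ : A →ₐ[k] A'),
      IsUnit (ψ f) → ∀ G' : CurveGD k B₀ B₁ B₀₁ A', CurveGD.IsBC ψ G G' →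
        G'.Rigidifiable e := by
  haveI : Module.Invertible (A ⊗[k] B₁) G.N₁ := G.invertible₁
  obtain ⟨f, hf, H⟩ := exists_slbc_of_invertible (epsHom e A).toRingHom G.N₁ 𝔭 h𝔭
  refine ⟨f, hf, ?_⟩
  intro A' _ _ ψ hunit G' ⟨bc⟩
  obtain ⟨d, hd⟩ := H A' ψ.toRingHom
    ((epsHom e A').toRingHom.comp (tensorMapLeft k ψ B₁))
    (fun r => epsHom_tensorMapLeft e ψ r) hunit
  obtain ⟨c, hc, -⟩ := slbc_exists_lift (tensorMapLeft k ψ B₁) (epsHom e A').toRingHom
    ((epsHom e A').toRingHom.comp (tensorMapLeft k ψ B₁)) (fun _ => rfl) bc.b₁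
    bc.isBaseChange₁ d hd
  exact ⟨c, hc⟩

end CurveGD

end Fermat.Agent.S25.H685
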