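import Mathlib

/-!
# S25 helper (helper685), block AFF, leaf F2: pullback of `tilde` is `tilde` of base change

For a ring map `φ : R ⟶ S` the pullback of `tilde N` along `Spec.map φ` is `tilde (S ⊗[R] N)`,
naturally in `N`.  Proof: uniqueness of left adjoints.
-/

set_option autoImplicit false

universe u

open CategoryTheory AlgebraicGeometry Opposite TopologicalSpace

namespace Fermat.Agent.S25.H685

noncomputable section

variable {R S : CommRingCat.{u}} (φ : R ⟶ S)

/-- Global sections commute with pushforward along `Spec.map φ`, up to restriction of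
scalars. -/
def pushforwardCompΓIso :
    Scheme.Modules.pushforward (Spec.map φ) ⋙ moduleSpecΓFunctor (R := R) ≅
      moduleSpecΓFunctor (R := S) ⋙ ModuleCat.restrictScalars φ.hom :=
  Functor.isoWhiskerRight (pushforwardCompModulesSpecToSheafIso φ)
    (TopCat.Sheaf.forget _ _ ⋙ (evaluation _ _).obj (.op ⊤)) ≪≫
    NatIso.ofComponents (fun M => Iso.refl _) (fun f => by
      simp only [Iso.refl_hom, Category.comp_id, Category.id_comp]
      rfl)

/-- The composite adjunction `tilde ⋙ pullback ⊣ pushforward ⋙ Γ`. -/
def tildePullbackAdj :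
    tilde.functor R ⋙ Scheme.Modules.pullback (Spec.map φ) ⊣
      Scheme.Modules.pushforward (Spec.map φ) ⋙ moduleSpecΓFunctor (R := R) :=
  tilde.adjunction.comp (Scheme.Modules.pullbackPushforwardAdjunction (Spec.map φ))

/-- The composite adjunction `extendScalars ⋙ tilde ⊣ Γ ⋙ restrictScalars`. -/
def extendTildeAdj :
    ModuleCat.extendScalars φ.hom ⋙ tilde.functor S ⊣
      moduleSpecΓFunctor (R := S) ⋙ ModuleCat.restrictScalars φ.hom :=
  (ModuleCat.extendRestrictScalarsAdj φ.hom).comp tilde.adjunction

/-- **F2**: pullback of `tilde` along `Spec.map φ` is `tilde` of the base change, as a natural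
isomorphism of functors. -/
def tildePullbackIso :
    tilde.functor R ⋙ Scheme.Modules.pullback (Spec.map φ) ≅
      ModuleCat.extendScalars φ.hom ⋙ tilde.functor S :=
  ((tildePullbackAdj φ).ofNatIsoRight (pushforwardCompΓIso φ)).leftAdjointUniq (extendTildeAdj φ)

/-- **F2**, objectwise. -/
def pullbackTildeIso (N : ModuleCat.{u} R) :
    (Scheme.Modules.pullback (Spec.map φ)).obj (tilde N) ≅
      tilde ((ModuleCat.extendScalars φ.hom).obj N) :=
  (tildePullbackIso φ).app N

end

end Fermat.Agent.S25.H685
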