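import Fermat.Agent.S25.H685.PullbackSections
import Fermat.Agent.S25.H685.TildePullback

/-!
# S25 helper (helper685), block AFF / route B3: sections of a pullback, affine case

For `φ : R ⟶ S` and a quasi-coherent module `M` on `Spec R`, the canonical map
`Γ(M, ⊤) ⟶ Γ((Spec.map φ)^* M, ⊤)` is a base change along `φ`.
-/

set_option autoImplicit false

universe u

open CategoryTheory AlgebraicGeometry Opposite TopologicalSpace

open Scheme.Modules

namespace Fermat.Agent.S25.H685

/-- An additive map `g : N → P` from an `R`-module to an `S`-module is a *base change along*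
`φ : R →+* S` if it is `φ`-semilinear and the induced map `S ⊗[R] N → P` is bijective. -/
def IsBaseChangeAlong {R S N P : Type*} [CommRing R] [CommRing S] [AddCommGroup N] [Module R N]
    [AddCommGroup P] [Module S P] (φ : R →+* S) (g : N →+ P) : Prop :=
  ∃ hg : ∀ (r : R) (n : N), g (r • n) = φ r • g n,
    letI := φ.toAlgebra
    letI := Module.compHom P φ
    haveI : IsScalarTower R S P := IsScalarTower.of_algebraMap_smul fun _ _ => rfl
    IsBaseChange S ({ toFun := g, map_add' := g.map_add, map_smul' := hg } : N →ₗ[R] P)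

section Affine

variable {R S : CommRingCat.{u}} (φ : R ⟶ S) (M : (Spec R).Modules)

/-- The unit map on global sections, as a morphism of `R`-modules. -/
noncomputable def unitΓ : moduleSpecΓFunctor.obj M ⟶
    (ModuleCat.restrictScalars φ.hom).obj
      (moduleSpecΓFunctor.obj ((Scheme.Modules.pullback (Spec.map φ)).obj M)) :=
  moduleSpecΓFunctor.map ((pullbackPushforwardAdjunction (Spec.map φ)).unit.app M) ≫
    (pushforwardCompΓIso φ).hom.app ((Scheme.Modules.pullback (Spec.map φ)).obj M)

theorem unitΓ_apply (x : Γ(M, ⊤)) :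
    (unitΓ φ M).hom x = pullbackUnitApp (Spec.map φ) M ⊤ x := rfl

theorem unitΓ_naturality {M M' : (Spec R).Modules} (α : M ⟶ M') :
    unitΓ φ M ≫ (ModuleCat.restrictScalars φ.hom).map
      (moduleSpecΓFunctor.map ((Scheme.Modules.pullback (Spec.map φ)).map α)) =
    moduleSpecΓFunctor.map α ≫ unitΓ φ M' := by
  unfold unitΓ
  have h1 := (pushforwardCompΓIso φ).hom.naturality ((Scheme.Modules.pullback (Spec.map φ)).map α)
  have h2 := (pullbackPushforwardAdjunction (Spec.map φ)).unit.naturality α
  simp only [Functor.comp_map, Functor.id_map, Functor.id_obj, Functor.comp_obj] at h1 h2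
  rw [Category.assoc, ← h1, ← Category.assoc, ← Functor.map_comp, ← h2, Functor.map_comp,
    Category.assoc]

/-- Unit of the composite adjunction `tilde ⋙ pullback ⊣ Γ ⋙ restrictScalars`. -/
theorem tildePullbackAdj_unit (N : ModuleCat.{u} R) :
    ((tildePullbackAdj φ).ofNatIsoRight (pushforwardCompΓIso φ)).unit.app N =
      tilde.adjunction.unit.app N ≫ unitΓ φ ((tilde.functor R).obj N) := by
  simp [tildePullbackAdj, unitΓ, Adjunction.ofNatIsoRight]

theorem extendTildeAdj_unit (N : ModuleCat.{u} R) :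
    (extendTildeAdj φ).unit.app N =
      (ModuleCat.extendRestrictScalarsAdj φ.hom).unit.app N ≫
        (ModuleCat.restrictScalars φ.hom).map
          (tilde.adjunction.unit.app ((ModuleCat.extendScalars φ.hom).obj N)) := by
  simp [extendTildeAdj]

theorem isIso_tilde_unit_app {R : CommRingCat.{u}} (N : ModuleCat.{u} R) :
    IsIso (tilde.adjunction.unit.app N) := by
  have : IsIso (tilde.adjunction (R := R)).unit := inferInstance
  infer_instance

theorem isIso_counit_of_isQuasicoherent [M.IsQuasicoherent] :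
    IsIso (tilde.adjunction.counit.app M) :=
  Scheme.Modules.isIso_fromTildeΓ_of_isQuasicoherent M

/-- The comparison isomorphism `S ⊗[R] Γ(M) ≅ Γ(f^* M)` for quasi-coherent `M` on `Spec R`. -/
noncomputable def extendΓIso [M.IsQuasicoherent] :
    (ModuleCat.extendScalars φ.hom).obj (moduleSpecΓFunctor.obj M) ≅
      moduleSpecΓFunctor.obj ((Scheme.Modules.pullback (Spec.map φ)).obj M) :=
  @asIso _ _ _ _ (tilde.adjunction.unit.app _) (isIso_tilde_unit_app _) ≪≫
    moduleSpecΓFunctor.mapIso ((tildePullbackIso φ).symm.app (moduleSpecΓFunctor.obj M)) ≪≫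
    moduleSpecΓFunctor.mapIso ((Scheme.Modules.pullback (Spec.map φ)).mapIso
      (@asIso _ _ _ _ (tilde.adjunction.counit.app M) (isIso_counit_of_isQuasicoherent M)))

theorem unit_extendΓIso_aux {C : Type*} [Category C] {A B B' D E' F : C} (a : A ⟶ B)
    (t : B ⟶ D) (tu : A ⟶ B') (uT : B' ⟶ E') (i_hom : E' ⟶ D) (i_inv : D ⟶ E') (e : E' ⟶ F)
    (ge : B' ⟶ A) (uM : A ⟶ F) (key : (tu ≫ uT) ≫ i_hom = a ≫ t) (hinv : i_hom ≫ i_inv = 𝟙 _)
    (nat : uT ≫ e = ge ≫ uM) (tri : tu ≫ ge = 𝟙 _) : a ≫ (t ≫ i_inv ≫ e) = uM := by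
  rw [← Category.assoc, ← key, Category.assoc, Category.assoc, reassoc_of% hinv, nat,
    ← Category.assoc, tri, Category.id_comp]

theorem unit_extendΓIso [M.IsQuasicoherent] :
    (ModuleCat.extendRestrictScalarsAdj φ.hom).unit.app (moduleSpecΓFunctor.obj M) ≫
      (ModuleCat.restrictScalars φ.hom).map (extendΓIso φ M).hom = unitΓ φ M := by
  have key := Adjunction.unit_leftAdjointUniq_hom_app
    ((tildePullbackAdj φ).ofNatIsoRight (pushforwardCompΓIso φ)) (extendTildeAdj φ)
    (moduleSpecΓFunctor.obj M)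
  rw [extendTildeAdj_unit, tildePullbackAdj_unit] at key
  have tri := tilde.adjunction.right_triangle_components M
  have nat := unitΓ_naturality φ (tilde.adjunction.counit.app M)
  have hinv : (ModuleCat.restrictScalars φ.hom).map (moduleSpecΓFunctor.map
        ((tildePullbackIso φ).hom.app (moduleSpecΓFunctor.obj M))) ≫
      (ModuleCat.restrictScalars φ.hom).map (moduleSpecΓFunctor.map
        ((tildePullbackIso φ).inv.app (moduleSpecΓFunctor.obj M))) = 𝟙 _ := by
    rw [← Functor.map_comp, ← Functor.map_comp, Iso.hom_inv_id_app]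
    simp
  have hE : (ModuleCat.restrictScalars φ.hom).map (extendΓIso φ M).hom =
      (ModuleCat.restrictScalars φ.hom).map
          (tilde.adjunction.unit.app ((ModuleCat.extendScalars φ.hom).obj
            (moduleSpecΓFunctor.obj M))) ≫
        (ModuleCat.restrictScalars φ.hom).map (moduleSpecΓFunctor.map
          ((tildePullbackIso φ).inv.app (moduleSpecΓFunctor.obj M))) ≫
        (ModuleCat.restrictScalars φ.hom).map (moduleSpecΓFunctor.map
          ((Scheme.Modules.pullback (Spec.map φ)).map (tilde.adjunction.counit.app M))) := by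
    rw [← Functor.map_comp, ← Functor.map_comp]
    rfl
  rw [hE]
  exact unit_extendΓIso_aux _ _ _ _ _ _ _ _ _ key hinv nat tri

theorem extendΓIso_one_tmul [M.IsQuasicoherent] (x : Γ(M, ⊤)) :
    (extendΓIso φ M).hom.hom
      (((ModuleCat.extendRestrictScalarsAdj φ.hom).unit.app (moduleSpecΓFunctor.obj M)).hom x) =
      pullbackUnitApp (Spec.map φ) M ⊤ x :=
  congrArg (fun ψ => ψ.hom x) (unit_extendΓIso φ M)

theorem unitΓ_smul (r : R) (x : Γ(M, ⊤)) :
    pullbackUnitApp (Spec.map φ) M ⊤ (r • x) =
      (φ.hom r • pullbackUnitApp (Spec.map φ) M ⊤ x :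
        Γ((Scheme.Modules.pullback (Spec.map φ)).obj M, (Spec.map φ) ⁻¹ᵁ ⊤)) :=
  (unitΓ φ M).hom.map_smul r x

/-- **Affine case**: for quasi-coherent `M` on `Spec R`, global sections of the pullback along
`Spec.map φ` are the base change of the global sections of `M`. -/
theorem isBaseChangeAlong_pullbackUnitApp_affine [M.IsQuasicoherent] :
    IsBaseChangeAlong φ.hom (pullbackUnitApp (Spec.map φ) M ⊤).hom := by
  refine ⟨unitΓ_smul φ M, ?_⟩
  let := φ.hom.toAlgebra
  let : Module R Γ((Scheme.Modules.pullback (Spec.map φ)).obj M, (Spec.map φ) ⁻¹ᵁ ⊤) :=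
    Module.compHom _ φ.hom
  have : IsScalarTower R S
      Γ((Scheme.Modules.pullback (Spec.map φ)).obj M, (Spec.map φ) ⁻¹ᵁ ⊤) :=
    IsScalarTower.of_algebraMap_smul fun _ _ => rfl
  exact IsBaseChange.of_equiv (extendΓIso φ M).toLinearEquiv (extendΓIso_one_tmul φ M)

end Affine

end Fermat.Agent.S25.H685
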