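import Fermat.Agent.S25.H685.PullbackAffine

/-!
# S25 helper (helper685), block AFF / route B3: sections of a pullback are a base change

Main theorem `isBaseChangeAlong_pullbackSections`: for `f : X ⟶ Y`, a quasi-coherent module `M`
on `Y` and affine opens `U ≤ f ⁻¹ᵁ V`, the canonical map `Γ(M, V) ⟶ Γ(f^* M, U)` is semilinear
along `f.appLE V U h : Γ(Y, V) ⟶ Γ(X, U)` and exhibits `Γ(f^* M, U)` as the base change
`Γ(X, U) ⊗[Γ(Y, V)] Γ(M, V)`.
-/

set_option autoImplicit false

universe u

open CategoryTheory AlgebraicGeometry Opposite TopologicalSpace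

open Scheme.Modules

namespace Fermat.Agent.S25.H685

section Algebra

variable {R S N P N' P' P'' : Type*} [CommRing R] [CommRing S] [AddCommGroup N] [Module R N]
  [AddCommGroup P] [Module S P] [AddCommGroup N'] [Module R N'] [AddCommGroup P'] [Module S P']
  [AddCommGroup P''] [Module S P'']

theorem IsBaseChangeAlong.map_smul {φ : R →+* S} {g : N →+ P} (hg : IsBaseChangeAlong φ g)
    (r : R) (n : N) : g (r • n) = φ r • g n :=
  hg.1 r n

/-- Transport of `IsBaseChangeAlong` along a commutative diagram with linear bijections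
`eN : N' → N`, `κ : P → P''`, `eP : P' → P''`. -/
theorem IsBaseChangeAlong.of_comm {φ : R →+* S} {g : N →+ P} (hg : IsBaseChangeAlong φ g)
    (g' : N' →+ P') (eN : N' →+ N) (heN : Function.Bijective eN)
    (heN' : ∀ (r : R) (n : N'), eN (r • n) = r • eN n)
    (κ : P →+ P'') (hκ : Function.Bijective κ) (hκ' : ∀ (s : S) (p : P), κ (s • p) = s • κ p)
    (eP : P' →+ P'') (heP : Function.Bijective eP)
    (heP' : ∀ (s : S) (p : P'), eP (s • p) = s • eP p)
    (comm : ∀ n, eP (g' n) = κ (g (eN n))) : IsBaseChangeAlong φ g' := by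
  obtain ⟨hsmul, hbc⟩ := hg
  have hsmul' : ∀ (r : R) (n : N'), g' (r • n) = φ r • g' n := by
    intro r n
    apply heP.1
    rw [comm, heN', hsmul, hκ', heP', comm]
  refine ⟨hsmul', ?_⟩
  let _ := φ.toAlgebra
  let _ : Module R P := Module.compHom P φ
  have : IsScalarTower R S P := IsScalarTower.of_algebraMap_smul fun _ _ => rfl
  let _ : Module R P' := Module.compHom P' φ
  have : IsScalarTower R S P' := IsScalarTower.of_algebraMap_smul fun _ _ => rfl
  let eNl : N' ≃ₗ[R] N := LinearEquiv.ofBijective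
    { toFun := eN, map_add' := eN.map_add, map_smul' := heN' } heN
  let κl : P ≃ₗ[S] P'' := LinearEquiv.ofBijective
    { toFun := κ, map_add' := κ.map_add, map_smul' := hκ' } hκ
  let ePl : P' ≃ₗ[S] P'' := LinearEquiv.ofBijective
    { toFun := eP, map_add' := eP.map_add, map_smul' := heP' } heP
  refine (IsBaseChange.iff_of_equiv_comm (S := S) eNl (ePl.trans κl.symm) ?_).mpr hbc
  ext n
  change g (eN n) = κl.symm (ePl (g' n))
  rw [LinearEquiv.eq_symm_apply]
  exact (comm n).symm

end Algebra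

section General

theorem fromSpec_appLE_top {X : Scheme.{u}} {U : X.Opens} (hU : IsAffineOpen U)
    (h : (⊤ : (Spec Γ(X, U)).Opens) ≤ hU.fromSpec ⁻¹ᵁ U) :
    hU.fromSpec.appLE U ⊤ h = (Scheme.ΓSpecIso Γ(X, U)).inv := by
  rw [Scheme.Hom.appLE, hU.fromSpec_app_self, Category.assoc, ← Functor.map_comp]
  have : (eqToHom hU.fromSpec_preimage_self).op ≫ (homOfLE h).op = 𝟙 (op ⊤) := rfl
  rw [this, CategoryTheory.Functor.map_id, Category.comp_id]

theorem smul_Spec_top {R : CommRingCat.{u}} (M : (Spec R).Modules) (r : R) (x : Γ(M, ⊤)) :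
    r • x = ((Scheme.ΓSpecIso R).inv r) • x := by
  rw [Scheme.Modules.smul_Spec_def]
  have : ((⊤ : (Spec R).Opens).leTop).op = 𝟙 (op ⊤) := rfl
  rw [this, CategoryTheory.Functor.map_id]
  rfl

/-- Sections over `⊤` of a morphism of modules on `Spec R` are `R`-linear. -/
theorem hom_app_top_smul {R : CommRingCat.{u}} {M M' : (Spec R).Modules} (θ : M ⟶ M') (r : R)
    (x : Γ(M, ⊤)) : θ.app ⊤ (r • x) = r • θ.app ⊤ x := by
  rw [smul_Spec_top, smul_Spec_top, Scheme.Modules.Hom.app_smul]

/-- For an affine open `U`, the canonical map `Γ(P, U) ⟶ Γ(fromSpec^* P, ⊤)` is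
`Γ(X, U)`-linear. -/
theorem pullbackSections_fromSpec_smul {X : Scheme.{u}} {U : X.Opens} (hU : IsAffineOpen U)
    (P : X.Modules) (h : (⊤ : (Spec Γ(X, U)).Opens) ≤ hU.fromSpec ⁻¹ᵁ U)
    (b : Γ(X, U)) (x : Γ(P, U)) :
    pullbackSections hU.fromSpec P U ⊤ h (b • x) =
      b • pullbackSections hU.fromSpec P U ⊤ h x := by
  rw [pullbackSections_smul, fromSpec_appLE_top, smul_Spec_top]

theorem bijective_pullbackSections_fromSpec {X : Scheme.{u}} {U : X.Opens}
    (hU : IsAffineOpen U) (P : X.Modules)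
    (h : (⊤ : (Spec Γ(X, U)).Opens) ≤ hU.fromSpec ⁻¹ᵁ U) :
    Function.Bijective (pullbackSections hU.fromSpec P U ⊤ h) := by
  have := isIso_pullbackSections_of_eq hU.fromSpec P U ⊤ hU.opensRange_fromSpec.ge
    hU.fromSpec_preimage_self.symm
  exact ConcreteCategory.bijective_of_isIso (pullbackSections hU.fromSpec P U ⊤ h)

theorem isQuasicoherent_pullback_of_isOpenImmersion {W X : Scheme.{u}} (j : W ⟶ X)
    [IsOpenImmersion j] (P : X.Modules) [P.IsQuasicoherent] :
    ((Scheme.Modules.pullback j).obj P).IsQuasicoherent :=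
  (SheafOfModules.isQuasicoherent W.ringCatSheaf).prop_of_iso
    ((restrictFunctorIsoPullback j).app P) (isQuasicoherent_restrictFunctor j P)

theorem pullbackSections_top_top {R S : CommRingCat.{u}} (φ : R ⟶ S) (M : (Spec R).Modules)
    (h : (⊤ : (Spec S).Opens) ≤ (Spec.map φ) ⁻¹ᵁ ⊤) :
    pullbackSections (Spec.map φ) M ⊤ ⊤ h = pullbackUnitApp (Spec.map φ) M ⊤ :=
  (congrArg (pullbackUnitApp (Spec.map φ) M ⊤ ≫ ·)
    (((Scheme.Modules.pullback (Spec.map φ)).obj M).presheaf.map_id _)).trans
    (Category.comp_id _)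

theorem isBaseChangeAlong_pullbackSections_affine {R S : CommRingCat.{u}} (φ : R ⟶ S)
    (M : (Spec R).Modules) [M.IsQuasicoherent] (h : (⊤ : (Spec S).Opens) ≤ (Spec.map φ) ⁻¹ᵁ ⊤) :
    IsBaseChangeAlong φ.hom (pullbackSections (Spec.map φ) M ⊤ ⊤ h).hom := by
  have := isBaseChangeAlong_pullbackUnitApp_affine φ M
  rw [pullbackSections_top_top]
  exact this

variable {X Y : Scheme.{u}} (f : X ⟶ Y) (M : Y.Modules) [M.IsQuasicoherent]
  {V : Y.Opens} {U : X.Opens}

/-- **Main theorem**: for a quasi-coherent module `M` on `Y`, a morphism `f : X ⟶ Y` and affine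
opens `U ≤ f ⁻¹ᵁ V`, the canonical map `Γ(M, V) ⟶ Γ(f^* M, U)` is a base change along
`f.appLE V U : Γ(Y, V) ⟶ Γ(X, U)`. -/
theorem isBaseChangeAlong_pullbackSections (hV : IsAffineOpen V) (hU : IsAffineOpen U)
    (h : U ≤ f ⁻¹ᵁ V) :
    IsBaseChangeAlong (f.appLE V U h).hom (pullbackSections f M V U h).hom := by
  have e : Spec.map (f.appLE V U h) ≫ hV.fromSpec = hU.fromSpec ≫ f :=
    IsAffineOpen.SpecMap_appLE_fromSpec f hV hU h
  have hqc : ((Scheme.Modules.pullback hV.fromSpec).obj M).IsQuasicoherent :=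
    isQuasicoherent_pullback_of_isOpenImmersion hV.fromSpec M
  have hV' : (⊤ : (Spec Γ(Y, V)).Opens) ≤ hV.fromSpec ⁻¹ᵁ V := hV.fromSpec_preimage_self.ge
  have hU' : (⊤ : (Spec Γ(X, U)).Opens) ≤ hU.fromSpec ⁻¹ᵁ U := hU.fromSpec_preimage_self.ge
  have hg3 := isBaseChangeAlong_pullbackSections_affine (f.appLE V U h)
    ((Scheme.Modules.pullback hV.fromSpec).obj M) le_top
  let θ : (Scheme.Modules.pullback (Spec.map (f.appLE V U h))).obj
        ((Scheme.Modules.pullback hV.fromSpec).obj M) ≅
      (Scheme.Modules.pullback hU.fromSpec).obj ((Scheme.Modules.pullback f).obj M) :=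
    (Scheme.Modules.pullbackComp (Spec.map (f.appLE V U h)) hV.fromSpec).app M ≪≫
      (Scheme.Modules.pullbackCongr e).app M ≪≫
      ((Scheme.Modules.pullbackComp hU.fromSpec f).app M).symm
  refine hg3.of_comm (pullbackSections f M V U h).hom
    (pullbackSections hV.fromSpec M V ⊤ hV').hom
    (bijective_pullbackSections_fromSpec hV M hV')
    (pullbackSections_fromSpec_smul hV M hV')
    (θ.hom.app ⊤).hom (ConcreteCategory.bijective_of_isIso (θ.hom.app ⊤))
    (hom_app_top_smul θ.hom)
    (pullbackSections hU.fromSpec ((Scheme.Modules.pullback f).obj M) U ⊤ hU').hom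
    (bijective_pullbackSections_fromSpec hU _ hU')
    (pullbackSections_fromSpec_smul hU _ hU') ?_
  intro x
  have c1 := pullbackSections_comp_apply hU.fromSpec f M h hU' x
  have c2 := pullbackSections_comp_apply (Spec.map (f.appLE V U h)) hV.fromSpec M hV'
    (le_top : (⊤ : (Spec Γ(X, U)).Opens) ≤ _) x
  have c3 := ConcreteCategory.congr_hom (pullbackSections_congr M e
    (V := V) (U := ⊤) (le_top.trans ((Spec.map (f.appLE V U h)).preimage_mono hV'))) x
  have c4 := ConcreteCategory.congr_hom (congrArg (fun ψ => Scheme.Modules.Hom.app ψ ⊤)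
    (Iso.inv_hom_id_app (Scheme.Modules.pullbackComp (Spec.map (f.appLE V U h)) hV.fromSpec) M))
    (pullbackSections (Spec.map (f.appLE V U h) ≫ hV.fromSpec) M V ⊤
      (le_top.trans ((Spec.map (f.appLE V U h)).preimage_mono hV')) x)
  refine c1.trans (Eq.symm ?_)
  refine (congrArg (θ.hom.app ⊤) c2).trans ?_
  refine (congrArg (fun z => ((Scheme.Modules.pullbackComp hU.fromSpec f).inv.app M).app ⊤
    (((Scheme.Modules.pullbackCongr e).hom.app M).app ⊤ z)) c4).trans ?_
  exact congrArg (((Scheme.Modules.pullbackComp hU.fromSpec f).inv.app M).app ⊤) c3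

end General

section API

theorem isBaseChange_of_instEq {R S N P : Type*} [CommRing R] [CommRing S]
    [AddCommGroup N] [Module R N] [AddCommGroup P] [Module S P]
    (a a' : Algebra R S) (m m' : Module R P)
    (t : @IsScalarTower R S P a.toSMul _ m.toSMul)
    (t' : @IsScalarTower R S P a'.toSMul _ m'.toSMul)
    (g : @LinearMap R R _ _ (RingHom.id R) N P _ _ _ m)
    (g' : @LinearMap R R _ _ (RingHom.id R) N P _ _ _ m')
    (ha : a = a') (hm : m = m') (hg : ∀ n, g n = g' n)
    (h : @IsBaseChange R N P S _ _ _ _ a _ m _ t g) :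
    @IsBaseChange R N P S _ _ _ _ a' _ m' _ t' g' := by
  subst ha hm
  have : g = g' := LinearMap.ext hg
  subst this
  exact h

variable {R S N P : Type*} [CommRing R] [CommRing S] [ia : Algebra R S] [AddCommGroup N]
  [Module R N] [AddCommGroup P] [im : Module R P] [Module S P] [it : IsScalarTower R S P]

/-- With ambient instances, `IsBaseChangeAlong (algebraMap R S) g` is `IsBaseChange S g`. -/
theorem IsBaseChangeAlong.isBaseChange {g : N →ₗ[R] P}
    (hg : IsBaseChangeAlong (algebraMap R S) g.toAddMonoidHom) : IsBaseChange S g := by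
  obtain ⟨hsmul, hbc⟩ := hg
  have ha : (algebraMap R S).toAlgebra = ia := Algebra.algebra_ext _ _ fun r => rfl
  have hm : Module.compHom P (algebraMap R S) = im :=
    Module.ext' _ _ fun r p => algebraMap_smul S r p
  exact isBaseChange_of_instEq (algebraMap R S).toAlgebra ia
    (Module.compHom P (algebraMap R S)) im _ it _ g ha hm (fun n => rfl) hbc

theorem IsBaseChangeAlong.of_isBaseChange {g : N →ₗ[R] P} (hg : IsBaseChange S g) :
    IsBaseChangeAlong (algebraMap R S) g.toAddMonoidHom := by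
  have hsmul : ∀ (r : R) (n : N), g.toAddMonoidHom (r • n) =
      algebraMap R S r • g.toAddMonoidHom n := fun r n => by
    change g (r • n) = algebraMap R S r • g n
    rw [g.map_smul, algebraMap_smul]
  have ha : ia = (algebraMap R S).toAlgebra := Algebra.algebra_ext _ _ fun r => rfl
  have hm : im = Module.compHom P (algebraMap R S) :=
    Module.ext' _ _ fun r p => (algebraMap_smul S r p).symm
  exact ⟨hsmul, isBaseChange_of_instEq ia (algebraMap R S).toAlgebra im
    (Module.compHom P (algebraMap R S)) it _ g _ ha hm (fun n => rfl) hg⟩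

end API

end Fermat.Agent.S25.H685
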