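import Mathlib

/-!
# S25 helper (helper685), block AFF / route B3: sections of a pullback

For `f : X ⟶ Y` and `M : Y.Modules` there is a canonical map
`Γ(M, V) ⟶ Γ(f^* M, U)` for opens `U ≤ f ⁻¹ᵁ V` (unit of `pullback ⊣ pushforward`, then
restriction).  We show it is semilinear, natural, compatible with restriction and with
composition of morphisms.
-/

set_option autoImplicit false

universe u

open CategoryTheory AlgebraicGeometry Opposite TopologicalSpace

namespace Fermat.Agent.S25.H685

noncomputable section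

open Scheme.Modules

variable {X Y : Scheme.{u}} (f : X ⟶ Y) (M : Y.Modules)

/-- The unit of `pullback ⊣ pushforward` on sections over `V`. -/
def pullbackUnitApp (V : Y.Opens) :
    Γ(M, V) ⟶ Γ((Scheme.Modules.pullback f).obj M, f ⁻¹ᵁ V) :=
  ((pullbackPushforwardAdjunction f).unit.app M).app V

theorem pullbackUnitApp_smul (V : Y.Opens) (r : Γ(Y, V)) (x : Γ(M, V)) :
    pullbackUnitApp f M V (r • x) = (f.app V) r • pullbackUnitApp f M V x :=
  Scheme.Modules.Hom.app_smul ((pullbackPushforwardAdjunction f).unit.app M) r x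

/-- The canonical map `Γ(M, V) ⟶ Γ(f^* M, U)` for `U ≤ f ⁻¹ᵁ V`. -/
def pullbackSections (V : Y.Opens) (U : X.Opens) (h : U ≤ f ⁻¹ᵁ V) :
    Γ(M, V) ⟶ Γ((Scheme.Modules.pullback f).obj M, U) :=
  pullbackUnitApp f M V ≫ ((Scheme.Modules.pullback f).obj M).presheaf.map (homOfLE h).op

theorem pullbackSections_apply (V : Y.Opens) (U : X.Opens) (h : U ≤ f ⁻¹ᵁ V) (x : Γ(M, V)) :
    pullbackSections f M V U h x =
      ((Scheme.Modules.pullback f).obj M).presheaf.map (homOfLE h).op
        (pullbackUnitApp f M V x) := rfl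

/-- The canonical map is semilinear along `f.appLE V U h`. -/
theorem pullbackSections_smul (V : Y.Opens) (U : X.Opens) (h : U ≤ f ⁻¹ᵁ V)
    (r : Γ(Y, V)) (x : Γ(M, V)) :
    pullbackSections f M V U h (r • x) = (f.appLE V U h) r • pullbackSections f M V U h x := by
  rw [pullbackSections_apply, pullbackUnitApp_smul, Scheme.Modules.map_smul]
  rfl

theorem hom_app_res {M N : X.Modules} (φ : M ⟶ N) {U U' : X.Opens} (i : U' ⟶ U) :
    φ.app U ≫ N.presheaf.map i.op = M.presheaf.map i.op ≫ φ.app U' :=
  (φ.mapPresheaf.naturality i.op).symm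

theorem pullbackUnitApp_naturality {M M' : Y.Modules} (φ : M ⟶ M') (V : Y.Opens) :
    pullbackUnitApp f M V ≫ ((Scheme.Modules.pullback f).map φ).app (f ⁻¹ᵁ V) =
      φ.app V ≫ pullbackUnitApp f M' V := by
  have := congrArg (fun ψ => Scheme.Modules.Hom.app ψ V)
    ((pullbackPushforwardAdjunction f).unit.naturality φ)
  exact this.symm

theorem pullbackUnitApp_res {V V' : Y.Opens} (hV : V' ≤ V) :
    pullbackUnitApp f M V ≫
        ((Scheme.Modules.pullback f).obj M).presheaf.map (homOfLE (f.preimage_mono hV)).op =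
      M.presheaf.map (homOfLE hV).op ≫ pullbackUnitApp f M V' :=
  hom_app_res ((pullbackPushforwardAdjunction f).unit.app M) (homOfLE hV)

/-- Naturality of the canonical map in the module. -/
theorem pullbackSections_naturality {M M' : Y.Modules} (φ : M ⟶ M') (V : Y.Opens)
    (U : X.Opens) (h : U ≤ f ⁻¹ᵁ V) :
    pullbackSections f M V U h ≫ ((Scheme.Modules.pullback f).map φ).app U =
      φ.app V ≫ pullbackSections f M' V U h := by
  unfold pullbackSections
  rw [Category.assoc, ← hom_app_res, ← Category.assoc, pullbackUnitApp_naturality,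
    Category.assoc]

/-- Compatibility of the canonical map with restriction. -/
theorem pullbackSections_res {V V' : Y.Opens} {U U' : X.Opens} (h : U ≤ f ⁻¹ᵁ V)
    (h' : U' ≤ f ⁻¹ᵁ V') (hV : V' ≤ V) (hU : U' ≤ U) :
    pullbackSections f M V U h ≫
        ((Scheme.Modules.pullback f).obj M).presheaf.map (homOfLE hU).op =
      M.presheaf.map (homOfLE hV).op ≫ pullbackSections f M V' U' h' := by
  unfold pullbackSections
  rw [← Category.assoc, ← pullbackUnitApp_res f M hV, Category.assoc, Category.assoc,
    ← Functor.map_comp, ← Functor.map_comp]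
  rfl

/-- The canonical map over `U` is the one over `f ⁻¹ᵁ V` followed by restriction. -/
theorem pullbackSections_eq_comp_res {V : Y.Opens} {U U' : X.Opens} (h : U ≤ f ⁻¹ᵁ V)
    (hU : U' ≤ U) :
    pullbackSections f M V U' (hU.trans h) = pullbackSections f M V U h ≫
        ((Scheme.Modules.pullback f).obj M).presheaf.map (homOfLE hU).op := by
  unfold pullbackSections
  rw [Category.assoc, ← Functor.map_comp]
  rfl

section Comp

variable {X' X Y : Scheme.{u}} (g : X' ⟶ X) (f : X ⟶ Y) (M : Y.Modules)

theorem pullbackUnitApp_comp (V : Y.Opens) :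
    pullbackUnitApp f M V ≫ pullbackUnitApp g ((Scheme.Modules.pullback f).obj M) (f ⁻¹ᵁ V) =
      pullbackUnitApp (g ≫ f) M V ≫
        ((Scheme.Modules.pullbackComp g f).inv.app M).app ((g ≫ f) ⁻¹ᵁ V) := by
  have key := unit_conjugateEquiv
    ((pullbackPushforwardAdjunction f).comp (pullbackPushforwardAdjunction g))
    (pullbackPushforwardAdjunction (g ≫ f)) (Scheme.Modules.pullbackComp g f).inv M
  rw [Scheme.Modules.conjugateEquiv_pullbackComp_inv, Adjunction.comp_unit_app] at key
  have := congrArg (fun ψ => Scheme.Modules.Hom.app ψ V) key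
  simp only [Scheme.Modules.Hom.comp_app] at this
  exact (Category.comp_id _).symm.trans this

theorem pullbackSections_comp_apply {V : Y.Opens} {U : X.Opens} {W : X'.Opens}
    (h : U ≤ f ⁻¹ᵁ V) (h' : W ≤ g ⁻¹ᵁ U) (x : Γ(M, V)) :
    pullbackSections g ((Scheme.Modules.pullback f).obj M) U W h'
        (pullbackSections f M V U h x) =
      ((Scheme.Modules.pullbackComp g f).inv.app M).app W
        (pullbackSections (g ≫ f) M V W (h'.trans (g.preimage_mono h)) x) := by
  have e1 := ConcreteCategory.congr_hom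
    (pullbackUnitApp_res g ((Scheme.Modules.pullback f).obj M) h) (pullbackUnitApp f M V x)
  have e2 := ConcreteCategory.congr_hom (pullbackUnitApp_comp g f M V) x
  have e3 := ConcreteCategory.congr_hom (hom_app_res ((Scheme.Modules.pullbackComp g f).inv.app M)
    (homOfLE (h'.trans (g.preimage_mono h)) : W ⟶ (g ≫ f) ⁻¹ᵁ V))
    (pullbackUnitApp (g ≫ f) M V x)
  have e4 := ConcreteCategory.congr_hom
    (((Scheme.Modules.pullback g).obj ((Scheme.Modules.pullback f).obj M)).presheaf.map_comp
      (homOfLE (g.preimage_mono h)).op (homOfLE h').op)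
    (pullbackUnitApp g ((Scheme.Modules.pullback f).obj M) (f ⁻¹ᵁ V) (pullbackUnitApp f M V x))
  refine (congrArg (((Scheme.Modules.pullback g).obj
    ((Scheme.Modules.pullback f).obj M)).presheaf.map (homOfLE h').op) e1.symm).trans ?_
  refine e4.symm.trans ?_
  refine (congrArg (((Scheme.Modules.pullback g).obj
    ((Scheme.Modules.pullback f).obj M)).presheaf.map
      ((homOfLE (g.preimage_mono h)).op ≫ (homOfLE h').op)) e2).trans ?_
  exact e3

theorem pullbackSections_comp {V : Y.Opens} {U : X.Opens} {W : X'.Opens} (h : U ≤ f ⁻¹ᵁ V)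
    (h' : W ≤ g ⁻¹ᵁ U) :
    pullbackSections f M V U h ≫ pullbackSections g ((Scheme.Modules.pullback f).obj M) U W h' =
      pullbackSections (g ≫ f) M V W (h'.trans (g.preimage_mono h)) ≫
        ((Scheme.Modules.pullbackComp g f).inv.app M).app W := by
  ext x
  exact pullbackSections_comp_apply g f M h h' x

theorem pullbackSections_congr {f f' : X ⟶ Y} (e : f = f') {V : Y.Opens} {U : X.Opens}
    (h : U ≤ f ⁻¹ᵁ V) :
    pullbackSections f M V U h ≫ ((Scheme.Modules.pullbackCongr e).hom.app M).app U =
      pullbackSections f' M V U (e ▸ h) := by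
  subst e
  simp [Scheme.Modules.pullbackCongr]


end Comp

section OpenImmersion

variable {W X : Scheme.{u}} (j : W ⟶ X) [IsOpenImmersion j] (P : X.Modules)

theorem pullbackUnitApp_openImmersion (V : X.Opens) :
    pullbackUnitApp j P V =
      P.presheaf.map (homOfLE (j.image_preimage_le V)).op ≫
        ((restrictFunctorIsoPullback j).hom.app P).app (j ⁻¹ᵁ V) := by
  have key := Adjunction.unit_leftAdjointUniq_hom_app (restrictAdjunction j)
    (pullbackPushforwardAdjunction j) P
  have := congrArg (fun ψ => Scheme.Modules.Hom.app ψ V) key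
  exact this.symm

theorem isIso_map_of_eq {X : Scheme.{u}} (P : X.Modules) {U V : X.Opens} (h : U = V)
    (i : U ⟶ V) : IsIso (P.presheaf.map i.op) := by
  subst h
  have : i = 𝟙 _ := rfl
  rw [this, op_id, CategoryTheory.Functor.map_id]
  infer_instance

theorem isIso_pullbackUnitApp_of_le (V : X.Opens) (hV : V ≤ j.opensRange) :
    IsIso (pullbackUnitApp j P V) := by
  rw [pullbackUnitApp_openImmersion]
  have hVV : j ''ᵁ (j ⁻¹ᵁ V) = V := by
    rw [Scheme.Hom.image_preimage_eq_opensRange_inf]
    exact inf_eq_right.mpr hV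
  have h1 : IsIso (P.presheaf.map (homOfLE (j.image_preimage_le V)).op) :=
    isIso_map_of_eq P hVV _
  have h2 : IsIso (((restrictFunctorIsoPullback j).hom.app P).app (j ⁻¹ᵁ V)) :=
    inferInstance
  exact IsIso.comp_isIso' h1 h2

theorem isIso_pullbackSections_of_eq (V : X.Opens) (U : W.Opens) (hV : V ≤ j.opensRange)
    (hU : U = j ⁻¹ᵁ V) : IsIso (pullbackSections j P V U hU.le) := by
  have h1 := isIso_pullbackUnitApp_of_le j P V hV
  have h2 : IsIso (((Scheme.Modules.pullback j).obj P).presheaf.map (homOfLE hU.le).op) :=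
    isIso_map_of_eq _ hU _
  exact IsIso.comp_isIso' h1 h2

end OpenImmersion

end

end Fermat.Agent.S25.H685
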