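import Fermat.Agent.S25.DefsAlg

/-!
# S25 helper (helper685): calculus of `IsSemilinearBaseChange` (frozen `DefsAlg`)

Composition and cancellation of semilinear base-change maps, ring homomorphisms as base
changes, linear equivalences.
-/

set_option autoImplicit false
set_option linter.style.haveILetI false

universe u

open scoped TensorProduct

namespace Fermat.Agent.S25.H685

open Fermat.Agent.S25

section SLBC

variable {R R' R'' : Type u} [CommRing R] [CommRing R'] [CommRing R'']
  {N N' N'' : Type u} [AddCommGroup N] [Module R N] [AddCommGroup N'] [Module R' N']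
  [AddCommGroup N''] [Module R'' N'']

/-- Composition of semilinear base changes. -/
theorem slbc_comp (ρ : R →+* R') (σ : R' →+* R'') (τ : R →+* R'') (hτ : ∀ r, τ r = σ (ρ r))
    (b : N →ₛₗ[ρ] N') (c : N' →ₛₗ[σ] N'') (d : N →ₛₗ[τ] N'') (hd : ∀ n, d n = c (b n))
    (hb : IsSemilinearBaseChange ρ b) (hc : IsSemilinearBaseChange σ c) :
    IsSemilinearBaseChange τ d := by
  letI : Algebra R R' := ρ.toAlgebra
  letI : Algebra R' R'' := σ.toAlgebra
  letI : Algebra R R'' := τ.toAlgebra
  haveI : IsScalarTower R R' R'' := IsScalarTower.of_algebraMap_eq hτ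
  letI : Module R N' := Module.compHom N' ρ
  haveI : IsScalarTower R R' N' := ⟨fun r r' n => by
    change (ρ r * r') • n = ρ r • (r' • n); rw [mul_smul]⟩
  letI : Module R' N'' := Module.compHom N'' σ
  haveI : IsScalarTower R' R'' N'' := ⟨fun r r' n => by
    change (σ r * r') • n = σ r • (r' • n); rw [mul_smul]⟩
  letI : Module R N'' := Module.compHom N'' τ
  haveI : IsScalarTower R R'' N'' := ⟨fun r r' n => by
    change (τ r * r') • n = τ r • (r' • n); rw [mul_smul]⟩
  haveI : IsScalarTower R R' N'' := ⟨fun r r' n => by
    change σ (ρ r * r') • n = τ r • (σ r' • n); rw [map_mul, mul_smul, hτ]⟩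
  have hb' : IsBaseChange R' (show N →ₗ[R] N' from
      { toFun := fun n => b n
        map_add' := fun m n => b.map_add m n
        map_smul' := fun r n => LinearMap.map_smulₛₗ b r n }) := hb
  have hc' : IsBaseChange R'' (show N' →ₗ[R'] N'' from
      { toFun := fun n => c n
        map_add' := fun m n => c.map_add m n
        map_smul' := fun r n => LinearMap.map_smulₛₗ c r n }) := hc
  have := IsBaseChange.comp hb' hc'
  change IsBaseChange R'' (show N →ₗ[R] N'' from
      { toFun := fun n => d n
        map_add' := fun m n => d.map_add m n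
        map_smul' := fun r n => LinearMap.map_smulₛₗ d r n })
  convert this using 1
  ext n
  exact hd n

/-- Cancellation: if `b : N → N'` is a base change along `ρ` and `d : N → N''` is a base change
along `τ = σ ∘ ρ`, then `d` factors through a base change `c : N' → N''` along `σ`. -/
theorem slbc_exists_lift (ρ : R →+* R') (σ : R' →+* R'') (τ : R →+* R'')
    (hτ : ∀ r, τ r = σ (ρ r)) (b : N →ₛₗ[ρ] N') (hb : IsSemilinearBaseChange ρ b)
    (d : N →ₛₗ[τ] N'') (hd : IsSemilinearBaseChange τ d) :
    ∃ c : N' →ₛₗ[σ] N'', IsSemilinearBaseChange σ c ∧ ∀ n, c (b n) = d n := by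
  letI : Algebra R R' := ρ.toAlgebra
  letI : Algebra R' R'' := σ.toAlgebra
  letI : Algebra R R'' := τ.toAlgebra
  haveI : IsScalarTower R R' R'' := IsScalarTower.of_algebraMap_eq hτ
  letI : Module R N' := Module.compHom N' ρ
  haveI : IsScalarTower R R' N' := ⟨fun r r' n => by
    change (ρ r * r') • n = ρ r • (r' • n); rw [mul_smul]⟩
  letI : Module R' N'' := Module.compHom N'' σ
  haveI : IsScalarTower R' R'' N'' := ⟨fun r r' n => by
    change (σ r * r') • n = σ r • (r' • n); rw [mul_smul]⟩
  letI : Module R N'' := Module.compHom N'' τ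
  haveI : IsScalarTower R R'' N'' := ⟨fun r r' n => by
    change (τ r * r') • n = τ r • (r' • n); rw [mul_smul]⟩
  haveI : IsScalarTower R R' N'' := ⟨fun r r' n => by
    change σ (ρ r * r') • n = τ r • (σ r' • n); rw [map_mul, mul_smul, hτ]⟩
  have hb' : IsBaseChange R' (show N →ₗ[R] N' from
      { toFun := fun n => b n
        map_add' := fun m n => b.map_add m n
        map_smul' := fun r n => LinearMap.map_smulₛₗ b r n }) := hb
  have hd' : IsBaseChange R'' (show N →ₗ[R] N'' from
      { toFun := fun n => d n
        map_add' := fun m n => d.map_add m n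
        map_smul' := fun r n => LinearMap.map_smulₛₗ d r n }) := hd
  let dl : N →ₗ[R] N'' :=
      { toFun := fun n => d n
        map_add' := fun m n => d.map_add m n
        map_smul' := fun r n => LinearMap.map_smulₛₗ d r n }
  let cl : N' →ₗ[R'] N'' := hb'.lift dl
  have hcl : ∀ n, cl (b n) = d n := fun n => hb'.lift_eq dl n
  let c : N' →ₛₗ[σ] N'' :=
    { toFun := fun n => cl n
      map_add' := fun m n => cl.map_add m n
      map_smul' := fun r n => cl.map_smul r n }
  refine ⟨c, ?_, hcl⟩
  change IsBaseChange R'' cl
  refine IsBaseChange.of_comp hb' ?_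
  convert hd' using 1
  ext n
  exact hcl n

end SLBC

end Fermat.Agent.S25.H685
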